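import Fermat.Agent.Extra.LTGen.Defs
import Fermat.Agent.LT.Asai.Galois
import Fermat.Agent.LT.Lift.Places

/-!
# The rational data of the lift and the pole of the Asai series, for a general mod 3 representation

The statements of `LT/Lift/Places` and `LT/Asai/Galois` with `IsThreeRho` for `IsThreeRep`.
-/

set_option autoImplicit false

noncomputable section

namespace Fermat.Agent.Extra.LTGen.Lift

open NumberField IsDedekindDomain Fermat.Agent.Galois Fermat.Agent.LT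
open Fermat.Agent.LT.Density (exists_abs_frobSum_sub_le exists_abs_tsum_sub_le_of_densityZero
  exists_finite_isConj_frobLift octSym frobLift exists_frobLift_spec isRationalClassFun_octSym
  mean_octSym fixing_iff_mem)
open Fermat.Agent.Density (idealCount)
open Fermat.Agent.LT.Lift (modThreeChar_frobenius_eq_one primeTo_of_absNorm
  primeDensityLE_of_smallPlaceSet)
open Fermat.Agent.LT.Asai (asaiCoeff octTrace_sq octTrace_eq_of_isConj sq_mem_quatSubgroup
  modThreeCyclotomicChar_ne_one splitting primeTo_of_mem asaiCoeff_of_one_place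
  asaiCoeff_of_two_places norm_asaiCoeff_primePow_le heckeSeq heckeSeq_one)
open Orbit (EisData)
open WeierstrassCurve (modThreeCyclotomicChar modThreeCyclotomicChar_apply)
open scoped MatrixGroups Classical Topology

variable {ρ : GalQ →* GL (Fin 2) (ZMod 3)}

theorem fixing_fieldF_iff (hρ : IsThreeRho ρ) (σ : GalQ) :
    (∀ x : fieldF, σ (x : Qbar) = x) ↔
      ρ σ ∈ (Matrix.GeneralLinearGroup.det : GL (Fin 2) (ZMod 3) →* (ZMod 3)ˣ).ker := by
  have h := fixing_iff_mem ρ hρ.factors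
    (Matrix.GeneralLinearGroup.det : GL (Fin 2) (ZMod 3) →* (ZMod 3)ˣ).ker σ
  rw [show Subgroup.comap ρ
      (Matrix.GeneralLinearGroup.det : GL (Fin 2) (ZMod 3) →* (ZMod 3)ˣ).ker = kerOmega by
    ext τ; simp only [Subgroup.mem_comap, kerOmega, MonoidHom.mem_ker, hρ.det]] at h
  exact h

/-- `∑_p a_p p^(-s) = log (1/(s-1)) + O(1)` when the bounded `a_p` agree with
`tr (Sym² θ ⊕ 1)(Frob_p)` off a set of density zero. -/
theorem exists_abs_sum_sub_le_of_eq_octSym (hρ : IsThreeRho ρ) (a : ℕ → ℝ) {B : ℝ}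
    (hB : ∀ p : ℕ, p.Prime → |a p| ≤ B) {X : Set ℕ} (hX : DS.PrimeDensityLE X 0)
    (ha : ∀ p : ℕ, p.Prime → p ∉ X → ∀ A : ValuationSubring Qbar, A.LiesOverPrime p →
      ∀ σ : GalQ, A.IsFrobeniusAt σ p → a p = octSym (ρ σ)) :
    ∃ C : ℝ, ∀ s : ℝ, 1 < s → s ≤ 2 →
      Summable (fun p : Nat.Primes ↦ a p * ((p : ℕ) : ℝ) ^ (-s)) ∧
      |(∑' p : Nat.Primes, a p * ((p : ℕ) : ℝ) ^ (-s)) - Real.log (1 / (s - 1))| ≤ C := by
  obtain ⟨S, hS, hconj⟩ := exists_finite_isConj_frobLift ρ hρ.factors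
  set b : ℕ → ℝ := fun p ↦ octSym (ρ (frobLift p))
  have hb : ∀ p : ℕ, p.Prime → p ∉ S → ∀ A : ValuationSubring Qbar, A.LiesOverPrime p →
      ∀ σ : GalQ, A.IsFrobeniusAt σ p → b p = octSym (ρ σ) := fun p hp hpS A hA σ hσ ↦ by
    obtain ⟨c, hc⟩ := isConj_iff.1 (hconj p hp hpS A hA σ hσ)
    rw [← hc, isRationalClassFun_octSym.conj]
  obtain ⟨C, hC⟩ := exists_abs_frobSum_sub_le ρ hρ.factors hρ.surjective isRationalClassFun_octSym
    b hS hb
  set M : ℝ := ∑ x, |octSym x|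
  obtain ⟨C', hC'⟩ := exists_abs_tsum_sub_le_of_densityZero (a := a) (b := b) (B := B + M) hX
    (fun p hp ↦ (abs_sub _ _).trans (add_le_add (hB p hp)
      (Finset.single_le_sum (f := fun x ↦ |octSym x|) (fun x _ ↦ abs_nonneg _) (by simp))))
    fun p hp hpX ↦ by
      obtain ⟨A, hA, hσ⟩ := exists_frobLift_spec hp
      exact ha p hp hpX A hA _ hσ
  refine ⟨C + C', fun s hs hs2 ↦ ?_⟩
  obtain ⟨h1, h2⟩ := hC s hs hs2
  rw [mean_octSym, one_mul] at h2
  obtain ⟨h3, h4⟩ := hC' s hs hs2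
  have he : (fun p : Nat.Primes ↦ a p * ((p : ℕ) : ℝ) ^ (-s)) = fun p : Nat.Primes ↦
      b p * ((p : ℕ) : ℝ) ^ (-s) + (a p - b p) * ((p : ℕ) : ℝ) ^ (-s) := funext fun p ↦ by ring
  rw [he]
  refine ⟨h1.add h3, ?_⟩
  rw [h1.tsum_add h3, add_sub_right_comm]
  exact (abs_add_le _ _).trans (add_le_add h2 h4)

/-- Outside a finite set, a prime congruent to `1` mod 3 is the norm of a place of `F`. -/
theorem exists_finite_place_of_prime (hρ : IsThreeRho ρ) :
    ∃ S : Set ℕ, S.Finite ∧ ∀ p : ℕ, p.Prime → p % 3 = 1 → p ∉ S →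
      ∃ v : HeightOneSpectrum (𝓞 fieldF), Ideal.absNorm v.asIdeal = p := by
  obtain ⟨S, hS, hcnt⟩ := Density.exists_idealCount_eq ρ fieldF.val
    (Matrix.GeneralLinearGroup.det : GL (Fin 2) (ZMod 3) →* (ZMod 3)ˣ).ker hρ.factors
    hρ.surjective (fixing_fieldF_iff hρ)
  refine ⟨S, hS, fun p hp hp3 hpS => ?_⟩
  obtain ⟨A, hA, hσ⟩ := Density.exists_frobLift_spec hp
  have h := hcnt p hp hpS A hA _ hσ
  rw [if_pos (by rw [MonoidHom.mem_ker, hρ.det, modThreeChar_frobenius_eq_one hp hp3 hA hσ])] at h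
  have hne : Nat.card {I : Ideal (𝓞 fieldF) // Ideal.absNorm I = p} ≠ 0 := fun h0 => by
    rw [idealCount, h0, Nat.cast_zero, zero_mul] at h
    exact (Nat.card_pos (α := GL (Fin 2) (ZMod 3))).ne' (Nat.cast_eq_zero.1 h.symm)
  obtain ⟨⟨I, hI⟩⟩ := (Nat.card_ne_zero.1 hne).1
  exact ⟨⟨I, Ideal.isPrime_of_irreducible_absNorm (by rw [hI]; exact hp),
    fun h0 => hp.ne_zero (by rw [← hI, h0, Ideal.absNorm_bot])⟩, hI⟩

/-- **The rational data of the lift.** -/
theorem exists_lift_primes (hρ : IsThreeRho ρ) {M : ℕ} (hM : M ≠ 0)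
    (a : HeightOneSpectrum (𝓞 fieldF) → ℂ) {X : Set (HeightOneSpectrum (𝓞 fieldF))}
    (hreal : ∀ v, PrimeTo M v → (a v).im = 0) (hX : SmallPlaceSet X)
    (hpin : ∀ v, PrimeTo M v → ∀ σ, IsFrobOver fieldF v.asIdeal σ →
      v ∉ X ∨ ρ σ ∈ quatSubgroup → a v = octTrace ρ σ) :
    ∃ (S : Set ℕ) (aP : ℕ → ℂ) (XQ : Set ℕ), DS.PrimeDensityLE XQ 0 ∧ S.Nonempty ∧
      (∀ p ∈ S, p.Prime ∧ ¬ p ∣ 3 * M ∧ p % 3 = 1 ∧ starRingEnd ℂ (aP p) = aP p ∧
        ∃ v : HeightOneSpectrum (𝓞 fieldF),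
          Ideal.absNorm v.asIdeal = p ∧ PrimeTo M v ∧ a v = aP p) ∧
      ∀ p, p.Prime → ¬ p ∣ 3 * M → p % 3 = 1 → p ∉ XQ →
        p ∈ S ∧ ∀ A : ValuationSubring Qbar, A.LiesOverPrime p →
          ∀ σ, A.IsFrobeniusAt σ p → aP p = octTrace ρ σ := by
  obtain ⟨S₀, hS₀, hplace⟩ := exists_finite_place_of_prime hρ
  obtain ⟨S₁, hS₁, hfrob⟩ := Density.exists_finite_isFrobOver ρ hρ.factors hρ.surjective fieldF
    (Matrix.GeneralLinearGroup.det : GL (Fin 2) (ZMod 3) →* (ZMod 3)ˣ).ker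
    (fixing_fieldF_iff hρ)
  obtain ⟨S₂, hS₂, hconj⟩ := Density.exists_finite_isConj_frobLift ρ hρ.factors
  let S : Set ℕ := {p | p.Prime ∧ ¬ p ∣ 3 * M ∧ p % 3 = 1 ∧ p ∉ S₀}
  let aP : ℕ → ℂ := fun p =>
    if h : ∃ v : HeightOneSpectrum (𝓞 fieldF), Ideal.absNorm v.asIdeal = p then a h.choose else 0
  have hval : ∀ p ∈ S, ∃ v : HeightOneSpectrum (𝓞 fieldF),
      Ideal.absNorm v.asIdeal = p ∧ PrimeTo M v ∧ a v = aP p := by
    rintro p ⟨hp, hpM, hp3, hpS⟩
    have h := hplace p hp hp3 hpS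
    exact ⟨h.choose, h.choose_spec,
      primeTo_of_absNorm hp (fun hd => hpM (hd.mul_left 3)) h.choose_spec, (by simp only [aP]; rw [dif_pos h])⟩
  refine ⟨S, aP, {p | ∃ v ∈ X, Ideal.absNorm v.asIdeal = p} ∪ (S₀ ∪ S₁ ∪ S₂), ?_, ?_, ?_, ?_⟩
  · simpa using (primeDensityLE_of_smallPlaceSet hX).union
      (DS.primeDensityLE_of_finite ((hS₀.union hS₁).union hS₂))
  · have hinf := Nat.infinite_setOfPred_prime_and_eq_mod (q := 3) (a := 1) isUnit_one
    obtain ⟨p, ⟨hp, hp1⟩, hpn⟩ :=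
      (hinf.sdiff (hS₀.union (3 * M).divisors.finite_toSet)).nonempty
    rw [Set.mem_union, not_or] at hpn
    refine ⟨p, hp, fun hd => hpn.2 ?_, ?_, hpn.1⟩
    · exact Finset.mem_coe.2 (Nat.mem_divisors.2 ⟨hd, mul_ne_zero three_ne_zero hM⟩)
    · have h := congrArg ZMod.val hp1
      rwa [ZMod.val_natCast, show (1 : ZMod 3).val = 1 from rfl] at h
  · intro p hp
    obtain ⟨v, hvn, hvM, hva⟩ := hval p hp
    exact ⟨hp.1, hp.2.1, hp.2.2.1, Complex.conj_eq_iff_im.2 (hva ▸ hreal v hvM), v, hvn, hvM, hva⟩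
  · intro p hp hpM hp3 hpX
    simp only [Set.mem_union, not_or] at hpX
    obtain ⟨hpX, ⟨hp0, hp1⟩, hp2⟩ := hpX
    have hpS : p ∈ S := ⟨hp, hpM, hp3, hp0⟩
    refine ⟨hpS, fun A hA σ hσ => ?_⟩
    obtain ⟨v, hvn, hvM, hva⟩ := hval p hpS
    obtain ⟨A', σ', hA', hσ', hover⟩ := hfrob v p hp hvn hp1
    obtain ⟨c, hc⟩ := isConj_iff.1
      ((hconj p hp hp2 A' hA' σ' hσ').symm.trans (hconj p hp hp2 A hA σ hσ))
    rw [← hva, hpin v hvM σ' hover (Or.inl fun hv => hpX ⟨v, hv, hvn⟩), octTrace, octTrace, ← hc,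
      map_mul, map_mul, map_inv, Matrix.GeneralLinearGroup.coe_mul,
      Matrix.GeneralLinearGroup.coe_mul, Matrix.trace_units_conj]

theorem isFrobOver_sq (hρ : IsThreeRho ρ) {p : ℕ} (hp : p.Prime) (h2 : p % 3 = 2)
    {v : HeightOneSpectrum (𝓞 fieldF)}
    (hv : ∀ u : HeightOneSpectrum (𝓞 fieldF), (p : 𝓞 fieldF) ∈ u.asIdeal ↔ u = v)
    (hN : Ideal.absNorm v.asIdeal = p ^ 2) {A : ValuationSubring Qbar}
    (hA : A.LiesOverPrime p) {σ : GalQ} (hσ : A.IsFrobeniusAt σ p) :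
    IsFrobOver fieldF v.asIdeal (σ ^ 2) ∧ ρ (σ ^ 2) ∈ quatSubgroup := by
  have hne : Matrix.GeneralLinearGroup.det (ρ σ) ≠ 1 := by
    rw [hρ.det]; exact modThreeCyclotomicChar_ne_one hp h2 hA hσ
  have hd := hσ.mem_decompositionSubgroup
  refine ⟨⟨?_, A, fun x => ?_, Subgroup.pow_mem _ hd 2, fun x hx => ?_⟩, ?_⟩
  · rw [IntermediateField.mem_fixingSubgroup_iff]
    intro x hx
    have hmem : σ ^ 2 ∈ kerOmega := MonoidHom.mem_ker.2 (by
      rw [map_pow]
      exact (by decide : ∀ u : (ZMod 3)ˣ, u ^ 2 = 1) _)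
    exact hx ⟨σ ^ 2, hmem⟩
  · have hP : (levelPlaceIdeal fieldF A) ≠ ⊥ := fun e => by
      have := natCast_mem_levelPlaceIdeal fieldF hA
      rw [e, Ideal.mem_bot, Nat.cast_eq_zero] at this
      exact hp.ne_zero this
    have := (hv ⟨levelPlaceIdeal fieldF A, inferInstance, hP⟩).1
      (natCast_mem_levelPlaceIdeal fieldF hA)
    rw [← congrArg HeightOneSpectrum.asIdeal this]
    exact mem_levelPlaceIdeal_iff fieldF
  · rw [← Submodule.cardQuot_apply, ← Ideal.absNorm_apply, hN, sq σ, AlgEquiv.mul_apply]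
    have hxσ : σ x ∈ A := decomposition_apply_mem hd hx
    have h1 := isFrobeniusAt_sub_mem_nonunits hσ hxσ
    have h2 := isFrobeniusAt_sub_mem_nonunits hσ hx
    obtain ⟨c, hc⟩ := sub_dvd_pow_sub_pow (⟨σ x, hxσ⟩ : A) ⟨x ^ p, pow_mem hx p⟩ p
    have hc' : (σ x) ^ p - (x ^ p) ^ p = (σ x - x ^ p) * (c : Qbar) := congrArg Subtype.val hc
    have h3 : (σ x) ^ p - (x ^ p) ^ p ∈ A.nonunits := by
      rw [hc']
      rw [ValuationSubring.mem_nonunits_iff] at h2 ⊢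
      rw [map_mul]
      exact mul_lt_one_of_lt_of_le h2 ((A.valuation_le_one_iff _).2 c.2)
    have := A.nonunits.add_mem h1 h3
    rwa [← pow_mul, ← sq, sub_add_sub_cancel] at this
  · rw [map_pow]
    exact sq_mem_quatSubgroup hne

/-- The lower bound for `∑_p Re A(p) p^(-s)`. -/
theorem exists_log_bound (hρ : IsThreeRho ρ) (E : EisData (𝓞 fieldF)) {M : ℕ} (hM : M ≠ 0)
    {a : HeightOneSpectrum (𝓞 fieldF) → ℂ} {X : Set (HeightOneSpectrum (𝓞 fieldF))}
    (ha : ∀ v, PrimeTo M v → ‖a v‖ ≤ 2 ∧ (a v).im = 0) (hX : SmallPlaceSet X)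
    (hgal : ∀ v, PrimeTo M v → ∀ σ, IsFrobOver fieldF v.asIdeal σ →
      v ∉ X ∨ ρ σ ∈ quatSubgroup → a v = octTrace ρ σ) :
    ∃ C : ℝ, ∀ s : ℝ, 1 < s → s ≤ 3 / 2 →
      Summable (fun p : Nat.Primes => (asaiCoeff M a p).re * ((p : ℕ) : ℝ) ^ (-s)) ∧
      Real.log (1 / (s - 1)) - C ≤
        ∑' p : Nat.Primes, (asaiCoeff M a p).re * ((p : ℕ) : ℝ) ^ (-s) := by
  obtain ⟨S₁, hS₁, hfrob⟩ := Density.exists_finite_isFrobOver ρ hρ.factors hρ.surjective fieldF
    (Matrix.GeneralLinearGroup.det : GL (Fin 2) (ZMod 3) →* (ZMod 3)ˣ).ker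
    (fixing_fieldF_iff hρ)
  obtain ⟨S₂, hS₂, hconj⟩ := Density.exists_finite_isConj_frobLift ρ hρ.factors
  set Y : Set ℕ := {p | ∃ v ∈ X, Ideal.absNorm v.asIdeal = p}
  have hY : DS.PrimeDensityLE Y 0 := by
    refine ⟨∑' v, X.indicator (fun v => (1 : ℝ) / (Ideal.absNorm v.asIdeal : ℝ)) v,
      fun s hs _ P hP => ?_⟩
    rw [zero_mul, zero_add]
    choose v hvX hvN using fun p : P => (hP p.1 p.2).2
    have hinj : Function.Injective v := fun p q h =>
      Subtype.ext (by rw [← hvN p, ← hvN q, h])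
    refine le_trans ?_ (hX.sum_le_tsum (P.attach.map ⟨v, hinj⟩)
      fun u _ => Set.indicator_nonneg (fun _ _ => by positivity) _)
    rw [Finset.sum_map, ← Finset.sum_attach]
    refine Finset.sum_le_sum fun p _ => ?_
    rw [Function.Embedding.coeFn_mk, Set.indicator_of_mem (hvX p), hvN, one_div,
      ← Real.rpow_neg_one]
    exact Real.rpow_le_rpow_of_exponent_le (mod_cast (hP p.1 p.2).1.one_le) (by linarith)
  set Z : Set ℕ := Y ∪ (S₁ ∪ S₂ ∪ {p | p ∣ 3 * M})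
  have hZ : DS.PrimeDensityLE Z 0 := by
    have := hY.union (DS.primeDensityLE_of_finite ((hS₁.union hS₂).union
      (Set.Finite.subset (Set.finite_le_nat (3 * M)) fun p hp =>
        Nat.le_of_dvd (by positivity) hp)))
    rw [add_zero] at this
    exact this
  have hbd : ∀ p : ℕ, p.Prime → |(asaiCoeff M a p).re| ≤ 4 := fun p hp => by
    have := norm_asaiCoeff_primePow_le E ha hp 1
    rw [pow_one] at this
    exact (Complex.abs_re_le_norm _).trans (this.trans (by norm_num))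
  obtain ⟨C, hC⟩ := exists_abs_sum_sub_le_of_eq_octSym hρ
    (fun p => (asaiCoeff M a p).re) hbd hZ fun p hp hpZ A hA σ hσ => by
      simp only [Z, Set.mem_union, Set.mem_ofPred_eq, not_or] at hpZ
      obtain ⟨hpY, ⟨hp1, hp2⟩, hp3⟩ := hpZ
      have hpM : ¬ p ∣ M := fun h => hp3 (h.mul_left 3)
      have hcoef : asaiCoeff M a p = asaiCoeff M a (p ^ 1) := by rw [pow_one]
      suffices (asaiCoeff M a p) = (Density.octSym (ρ σ) : ℂ) by rw [this, Complex.ofReal_re]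
      rw [Density.octSym_eq]
      show _ = octTrace ρ σ ^ 2 - _ + 1
      cases splitting E hp with
      | inert v h hm ho hN =>
        obtain ⟨hover, hquat⟩ := isFrobOver_sq hρ hp h hm hN hA hσ
        rw [hcoef, asaiCoeff_of_one_place hp hpM hm, ho, mul_one, heckeSeq_one,
          hgal v (primeTo_of_mem hp hpM ((hm v).2 rfl)) _ hover (Or.inr hquat), octTrace_sq,
          (Density.octRep_trace_det (ρ σ)).2.2]
        have hne : Matrix.GeneralLinearGroup.det (ρ σ) ≠ 1 := by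
          rw [hρ.det]; exact modThreeCyclotomicChar_ne_one hp h hA hσ
        rw [Density.octSign, Density.signVal,
          if_neg fun h' => hne ((Density.det_eq_one_iff _).1 h')]
        push_cast
        ring
      | split v v' h hne hm ho ho' hN hN' =>
        obtain ⟨A₁, σ₁, hA₁, hσ₁, hover₁⟩ := hfrob v p hp hN hp1
        obtain ⟨A₂, σ₂, hA₂, hσ₂, hover₂⟩ := hfrob v' p hp hN' hp1
        have e₁ := octTrace_eq_of_isConj
          ((hconj p hp hp2 A₁ hA₁ σ₁ hσ₁).symm.trans (hconj p hp hp2 A hA σ hσ))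
        have e₂ := octTrace_eq_of_isConj
          ((hconj p hp hp2 A₂ hA₂ σ₂ hσ₂).symm.trans (hconj p hp hp2 A hA σ hσ))
        rw [hcoef, asaiCoeff_of_two_places hp hpM hne hm, ho, ho', mul_one, heckeSeq_one,
          heckeSeq_one,
          hgal v (primeTo_of_mem hp hpM ((hm v).2 (Or.inl rfl))) _ hover₁
            (Or.inl fun hvX => hpY ⟨v, hvX, hN⟩),
          hgal v' (primeTo_of_mem hp hpM ((hm v').2 (Or.inr rfl))) _ hover₂
            (Or.inl fun hvX => hpY ⟨v', hvX, hN'⟩), e₁, e₂,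
          (Density.octRep_trace_det (ρ σ)).2.2]
        have hone : Matrix.GeneralLinearGroup.det (ρ σ) = 1 := by
          obtain ⟨c, hc⟩ := isConj_iff.1
            ((hconj p hp hp2 A₁ hA₁ σ₁ hσ₁).symm.trans (hconj p hp hp2 A hA σ hσ))
          rw [← hc, map_mul, map_mul, map_inv, mul_inv_cancel_comm]
          exact MonoidHom.mem_ker.1 ((fixing_fieldF_iff hρ σ₁).1 fun x =>
            (IntermediateField.mem_fixingSubgroup_iff _ _).1 hover₁.1 x x.2)
        rw [Density.octSign, Density.signVal, if_pos ((Density.det_eq_one_iff _).2 hone)]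
        push_cast
        ring
      | ramified v h hm ho hN => exact absurd (h ▸ dvd_mul_right 3 M) hp3
  refine ⟨C, fun s hs hs2 => ?_⟩
  obtain ⟨h1, h2⟩ := hC s hs (hs2.trans (by norm_num))
  exact ⟨h1, by have := (abs_le.1 h2).1; linarith⟩

end Fermat.Agent.Extra.LTGen.Lift
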