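import Fermat.Agent.Extra.LTGen.Lift.Galois
import Fermat.Agent.LT.Asai.PeriodMain

/-!
# C3 for a general mod 3 representation: the theta lift to weight one

The proof of `LT/Asai/PeriodMain` and `LT/Lift/Main`. The curve only enters `HasMixedForm` through
the exponent of `3`, so a curve of discriminant prime to `3` is substituted.
-/

set_option autoImplicit false

noncomputable section

namespace Fermat.Agent.Extra.LTGen.Lift

open Fermat.Agent.Galois Fermat.Agent.LT Fermat.Agent.LT.Adelic NumberField IsDedekindDomain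
open Fermat.Agent.LT.Lift Fermat.Agent.LT.Asai MeasureTheory
open WeierstrassCurve CongruenceSubgroup
open Orbit (EisData)
open scoped MatrixGroups ModularForm ComplexConjugate

local notation "𝕆" => 𝓞 fieldF

variable {ρ : GalQ →* GL (Fin 2) (ZMod 3)}

/-- A curve of discriminant prime to `3`. -/
def auxCurve : WeierstrassCurve ℤ := ⟨0, 0, 0, 1, 0⟩

theorem not_three_dvd_auxCurve : ¬ (3 : ℤ) ∣ auxCurve.Δ := by
  simp [auxCurve, WeierstrassCurve.Δ, WeierstrassCurve.b₂, WeierstrassCurve.b₄,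
    WeierstrassCurve.b₆, WeierstrassCurve.b₈]

/-- **The period theorem.** -/
theorem exists_period (hρ : IsThreeRho ρ) (Φ : Frame fieldF Unit) (M : ℕ)
    (U : Subgroup (GfK fieldF)) (φ : Space Φ U → ℂ) (a : HeightOneSpectrum 𝕆 → ℂ)
    (X : Set (HeightOneSpectrum 𝕆)) (hM : M ≠ 0) (hMU : principalLevel _ (M : 𝕆) ≤ U)
    (hU1 : U ≤ principalLevel _ 1) (hφ : IsCuspEigen φ)
    (heigen : ∀ v, PrimeTo (3 * M) v → IsHeckeEigenAt φ v (a v) ∧ ‖a v‖ ≤ 2 ∧ (a v).im = 0)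
    (hX : SmallPlaceSet X)
    (hpin : ∀ v, PrimeTo (3 * M) v → ∀ σ, IsFrobOver fieldF v.asIdeal σ →
      v ∉ X ∨ ρ σ ∈ quatSubgroup → a v = octTrace ρ σ) :
    ∃ (ψ : Space Φ U → ℂ) (M' : ℕ) (_ : NeZero M') (h₀ : GfK fieldF),
      IsCuspEigen ψ ∧ (∀ v, PrimeTo (3 * M) v → IsHeckeEigenAt ψ v (a v)) ∧
      M ∣ M' ∧ (∀ p : ℕ, p.Prime → p ∣ M' → p ∣ M) ∧
      (∀ v : HeightOneSpectrum 𝕆, PrimeTo M v → Aleph.localGL fieldF v h₀ = 1) ∧
      (∀ g ∈ principalLevel fieldF ((3 * M' ^ 2 : ℕ) : 𝕆), h₀⁻¹ * g * h₀ ∈ U) ∧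
      haveI : NeZero (3 * M' ^ 2) := ⟨by simp [NeZero.ne M']⟩
      ∑ g : GL (Fin 2) (ZMod (3 * M' ^ 2)),
        Asai.planePeriod ψ ((Asai.ratLift fieldF g * h₀ : GfK fieldF) : Yf U) ≠ 0 := by
  obtain ⟨E, -⟩ := Lift.exists_eisData_fieldF ((Φ.emb ()).comp (algebraMap (𝓞 fieldF) fieldF))
  have ha : ∀ v, PrimeTo (3 * M) v → ‖a v‖ ≤ 2 ∧ (a v).im = 0 := fun v hv => (heigen v hv).2
  suffices hkey : ∃ (ψ : Space Φ U → ℂ) (a' : HeightOneSpectrum (𝓞 fieldF) → ℂ),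
      IsCuspEigen ψ ∧ (∀ v, PrimeTo (3 * M) v → IsHeckeEigenAt ψ v (a v)) ∧
      (∀ v, PrimeTo M v → IsHeckeEigenAt ψ v (a' v)) ∧
      (∀ s : ℝ, 1 < s → Summable fun m : ℕ => ‖asaiCoeff M a' m‖ * (m : ℝ) ^ (-s)) ∧
      ∃ c : ℝ, 0 < c ∧ ∀ s : ℝ, 1 < s → s ≤ 3 / 2 →
        c / (s - 1) ≤ ‖dirSum (asaiCoeff M a') s‖ by
    obtain ⟨ψ, a', hψ, he, he', hsum, hlow⟩ := hkey
    obtain ⟨k, h, hloc, hfix, hne⟩ :=
      exists_period_ne_zero hM hMU hU1 hψ he' E hsum hlow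
    exact ⟨ψ, M ^ (k + 1), ⟨pow_ne_zero _ hM⟩, h, hψ, he, dvd_pow_self M k.succ_ne_zero,
      fun p hp hpd => hp.dvd_of_dvd_pow hpd, hloc, hfix, hne⟩
  by_cases h3 : 3 ∣ M
  · have ha' : ∀ v, PrimeTo M v → ‖a v‖ ≤ 2 ∧ (a v).im = 0 := fun v hv =>
      ha v (primeTo_three_mul h3 hv)
    have hlog := Fermat.Agent.Extra.LTGen.Lift.exists_log_bound hρ E hM ha' hX
      fun v hv => hpin v (primeTo_three_mul h3 hv)
    refine ⟨φ, a, hφ, fun v hv => (heigen v hv).1,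
      fun v hv => (heigen v (primeTo_three_mul h3 hv)).1, fun s hs => ?_,
      exists_lower_bound_asai E ha' hlog⟩
    refine (summable_norm_dirichlet asaiCoeff_zero asaiCoeff_one asaiCoeff_mul
      (fun p hp k => (norm_asaiCoeff_primePow_le E ha' hp k).trans
        (le_mul_of_one_le_left (by positivity) (by norm_num))) hs).congr fun n => ?_
    rw [norm_mul, Complex.norm_real, Real.norm_of_nonneg (Real.rpow_nonneg (Nat.cast_nonneg _) _)]
  · obtain ⟨ψ, v, a', hv, hψ, -, he, he'⟩ :=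
      Lift.exists_eigen_at_three E hM h3 hMU hU1 hφ fun w hw => (heigen w hw).1
    have ha' : ∀ w, PrimeTo (3 * M) w → ‖a' w‖ ≤ 2 ∧ (a' w).im = 0 := fun w hw => by
      rw [(he w hw).1]; exact ha w hw
    have hlog := Fermat.Agent.Extra.LTGen.Lift.exists_log_bound hρ E (mul_ne_zero three_ne_zero hM) ha' hX
      fun w hw σ hσ hor => by rw [(he w hw).1]; exact hpin w hw σ hσ hor
    have hvM : PrimeTo M v := fun h =>
      not_mem_of_coprime (Nat.prime_three.coprime_iff_not_dvd.2 h3) v (by simpa using hv) h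
    have hb : IsThreeBounded (heckeSeq (a' v)) := by
      obtain ⟨C, hC⟩ := exists_heckeSeq_bound hM hMU hU1 hψ he' v hvM
      exact ⟨C, fun n => by
        have := hC n
        rwa [absNorm_eq_three E hv, Nat.cast_ofNat] at this⟩
    obtain ⟨hsum, hlow⟩ := exists_lower_bound_asai_three E hM h3 hv ha' hb hlog
    exact ⟨ψ, a', hψ, fun w hw => (he w hw).2, he', hsum, hlow⟩

/-- The mixed form of a descent form. -/
theorem hasMixedForm (hρ : IsThreeRho ρ) (hD : HasDescentFormGen ρ) :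
    HasMixedForm auxCurve ρ := by
  obtain ⟨Φ, M, U, φ, a, X, hM, hMU, hU1, hφ, heigen, hX, hpin⟩ := hD
  obtain ⟨ψ, M', hM', h', hψc, hψe, hdvd, hprimes, hh', hconj', hsum'⟩ :=
    exists_period hρ Φ M U φ a X hM hMU hU1 hφ heigen hX hpin
  obtain ⟨m, hm, h₀, L, hL, hMm, hmM, hh₀, hconjm, hL3, hconjL, hsum⟩ :=
    hasPeriodVector_of_period hMU hdvd hprimes hh' hconj' hsum'
  have hdiv : 3 * M ∣ 3 * m := Nat.mul_dvd_mul_left 3 hMm
  obtain ⟨S, aP, XQ, hXQ, hSne, hS, hexact⟩ :=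
    Fermat.Agent.Extra.LTGen.Lift.exists_lift_primes hρ (M := 3 * m) (by simp [NeZero.ne m]) a
    (fun v hv => (heigen v (primeTo_of_dvd hdiv hv)).2.2) hX
    fun v hv => hpin v (primeTo_of_dvd hdiv hv)
  have hdvd3 : ∀ p : ℕ, p.Prime → (p ∣ 3 * (3 * m) ↔ p ∣ 3 * m) := fun p hp =>
    ⟨fun h => (hp.dvd_mul.mp h).elim (fun h' => h'.mul_right m) id, fun h => h.mul_left 3⟩
  have := isPrincipalIdealRing_fieldF
  have := isBezout_fieldF
  obtain ⟨E, hw⟩ := exists_eisData_fieldF (frameEmb Φ)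
  have hlvl : lvl fieldF m = ((3 * m : ℕ) : 𝕆) * (m : 𝕆) := by simp [lvl]; ring
  have hconj : ∀ g ∈ principalLevel fieldF (lvl fieldF m), h₀⁻¹ * g * h₀ ∈ U := fun g hg =>
    hconjm g (principalLevel_mono (hlvl ▸ dvd_mul_left (m : 𝕆) _) hg)
  have hA : LiftInput E (frameEmb Φ) m (liftA Φ m h₀ ψ) S aP :=
    liftInput_of E hw hconj
      (fun v hv => hh₀ v (intValuation_eq_one_of_mul (hlvl ▸ hv)))
      hψc (m₀ := 3 * M)
      ((principalLevel_mono (Nat.cast_dvd_cast (dvd_mul_left M 3))).trans hMU)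
      (hdiv.trans (Nat.mul_dvd_mul_left 3 (dvd_pow_self m two_ne_zero))) hU1
      (fun v hv => ⟨hψe v hv, (heigen v hv).2⟩) hSne
      fun p hp => ⟨(hS p hp).1, fun h => (hS p hp).2.1 ((hdvd3 p (hS p hp).1).mpr h),
        (hS p hp).2.2.1, (hS p hp).2.2.2.2.imp fun v hv => ⟨hv.1, hv.2.2⟩⟩
  have hcen : IsCentral (liftA Φ m h₀ ψ) := liftA_central hconj ψ
  obtain ⟨wt, hwt⟩ := exists_isGoodWeight (M := m) E hw
  obtain ⟨C, hC⟩ := exists_isMajorant m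
  obtain ⟨χ, hχ, hχne⟩ := exists_liftF_ne_zero hA hcen (liftA_factor hconjm ψ) hwt hC
    (fun p hp => (hS p hp).1) (hasNonzeroPeriod_of_planePeriod hL3 hconjL ψ hsum)
  exact hasMixedForm_of_lift (W := auxCurve) (fun h => absurd h not_three_dvd_auxCurve) hA hcen hwt hC χ
    (fun p hp => (hS p hp).1) (fun γ hγ => liftF_slash_inMixed E hχ hγ) hχne
    (liftF_hecke_mixed E hχ hwt hA hcen hC) hXQ
    fun p hp hpm => hexact p hp fun h => hpm ((hdvd3 p hp).mp h)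

/-- C3. -/
theorem stmtThetaLiftGen : StmtThetaLiftGen := by
  intro ρ hρ hD
  obtain ⟨L, hL, h, hh, F, S, a, X, -, hinv, hexp, hF, hreal, hT, hX, hexact⟩ :=
    hasMixedForm hρ hD
  obtain ⟨f, ε, h1, hrec, hneb, heig⟩ :=
    WeightOne.exists_eigenform_of_mixed hinv hexp hF S a hreal hT
  have hN : NeZero (3 * L ^ 2) := ⟨by simp [NeZero.ne L]⟩
  refine ⟨3 * L ^ 2, hN, ε, f, h1, hrec, hneb, X, hX, fun p hp hpN hp3 hpX A hA σ hσ => ?_⟩
  obtain ⟨hpS, htr⟩ := hexact p hp hpN hp3 hpX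
  rw [heig p hpS hp]
  exact htr A hA σ hσ

end Fermat.Agent.Extra.LTGen.Lift
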